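import Mathlib
import Fermat.Prelude.Def_FLTPrelim_Ramification
import Fermat.Agent.S14.Frob.ValuationLift

/-!
# S13 / block MINK (owner helper18)

`eq_top_of_inertia_le`: an open normal subgroup of `Gal(ℚ̄/ℚ)` containing, for every prime `ℓ`, the
inertia group of some valuation subring above `ℓ`, is everything.
Proof: the fixed field `E` is a finite Galois extension of `ℚ`; for the prime `p` given by
Mathlib's `NumberField.exists_not_isUnramifiedAt_int_of_isGalois`, the prime of `𝓞 E` cut out by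
the valuation subring `A` over `p` has trivial inertia group in `Gal(E/ℚ)` (lift inertia elements
to the inertia group of `A` by `lift_inertia`), hence ramification index one: contradiction.
-/

set_option autoImplicit false

namespace Fermat.Agent.S13.Mink

open NumberField
open scoped Pointwise
open Fermat.Agent.S54 Fermat.Agent.S14.Frob.ValuationLift

local notation "Qb" => AlgebraicClosure ℚ
local notation "Γ" => (AlgebraicClosure ℚ ≃ₐ[ℚ] AlgebraicClosure ℚ)
local notation "Ob" => integralClosure ℤ (AlgebraicClosure ℚ)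

attribute [local instance] isAlgebraic_qbar isGalois_qbar

variable (E : IntermediateField ℚ Qb)

/-- The ring homomorphism `𝓞 E → Ob`. -/
noncomputable def toOb : 𝓞 E →+* Ob :=
  ((algebraMap E Qb).comp (algebraMap (𝓞 E) E)).codRestrict (integralClosure ℤ Qb) (fun x => by
    have hx : IsIntegral ℤ (algebraMap (𝓞 E) E x) := RingOfIntegers.isIntegral_coe x
    exact hx.map (IsScalarTower.toAlgHom ℤ E Qb))

theorem coe_toOb (x : 𝓞 E) : ((toOb E x : Ob) : Qb) = ((x : E) : Qb) := rfl

/-- The prime of `𝓞 E` cut out by the valuation subring `A`. -/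
noncomputable def primeBelow (A : ValuationSubring Qb) : Ideal (𝓞 E) :=
  (primeOf A).comap (toOb E)

theorem mem_primeBelow (A : ValuationSubring Qb) (x : 𝓞 E) :
    x ∈ primeBelow E A ↔ ((x : E) : Qb) ∈ A.nonunits := Iff.rfl

theorem primeBelow_isPrime (A : ValuationSubring Qb) : (primeBelow E A).IsPrime :=
  haveI := primeOf_isPrime A
  Ideal.comap_isPrime _ _


theorem natCast_mem_primeBelow (A : ValuationSubring Qb) (ℓ : ℕ) (hA : A.LiesOverPrime ℓ) :
    ((ℓ : ℕ) : 𝓞 E) ∈ primeBelow E A := by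
  rw [mem_primeBelow]
  have h : (((ℓ : 𝓞 E) : E) : Qb) = (ℓ : Qb) := by simp
  rw [h]
  exact hA

/-- If the inertia group of `A` fixes `E` pointwise, the inertia group of `Gal(E/ℚ)` at the prime
of `E` cut out by `A` is trivial. -/
theorem inertia_primeBelow_eq_bot [FiniteDimensional ℚ E] [Normal ℚ E] (ℓ : ℕ) (hℓ : ℓ.Prime)
    (A : ValuationSubring Qb) (hA : A.LiesOverPrime ℓ)
    (hfix : ∀ σ ∈ A.inertiaSubgroupIn ℚ, ∀ x : E, σ (x : Qb) = (x : Qb)) :
    (primeBelow E A).inertia (E ≃ₐ[ℚ] E) = ⊥ := by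
  rw [eq_bot_iff]
  intro τ hτ
  rw [Subgroup.mem_bot]
  have h1 : ∀ x : E, IsIntegral ℤ x → ((τ x : E) : Qb) - (x : Qb) ∈ A.nonunits := by
    intro x hx
    have h2 : τ • (⟨x, hx⟩ : 𝓞 E) - (⟨x, hx⟩ : 𝓞 E) ∈ primeBelow E A := hτ (⟨x, hx⟩ : 𝓞 E)
    exact (mem_primeBelow E A _).mp h2
  obtain ⟨σ, hσ, hσx⟩ := lift_inertia E ℓ hℓ A hA τ h1
  ext x
  have h3 := hfix σ hσ x
  rw [hσx] at h3
  exact congrArg _ (Subtype.ext h3)

/-- **Minkowski** in the form needed: a finite normal subextension `E` of `Qb/ℚ` which, for every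
prime `ℓ`, is fixed pointwise by the inertia group of some `A` over `ℓ`, is `ℚ`. -/
theorem finrank_eq_one_of_inertia [FiniteDimensional ℚ E] [Normal ℚ E]
    (h : ∀ ℓ : ℕ, ℓ.Prime → ∃ A : ValuationSubring Qb, A.LiesOverPrime ℓ ∧
      ∀ σ ∈ A.inertiaSubgroupIn ℚ, ∀ x : E, σ (x : Qb) = (x : Qb)) :
    Module.finrank ℚ E = 1 := by
  by_contra hne
  have hpos : 0 < Module.finrank ℚ E := Module.finrank_pos
  have h1 : 1 < Module.finrank ℚ E := by omega
  have : IsGalois ℚ E := ⟨⟩
  have : NumberField E := { to_charZero := inferInstance, to_finiteDimensional := inferInstance }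
  obtain ⟨p, hp, hram⟩ :=
    NumberField.exists_not_isUnramifiedAt_int_of_isGalois (K := E) (𝒪 := 𝓞 E) h1
  obtain ⟨A, hA, hfix⟩ := h p hp
  have hP : (primeBelow E A).IsPrime := primeBelow_isPrime E A
  have hpP : ((p : ℕ) : 𝓞 E) ∈ primeBelow E A := natCast_mem_primeBelow E A p hA
  apply hram (primeBelow E A) hP hpP
  have hin := inertia_primeBelow_eq_bot E p hp A hA hfix
  have hP0 : primeBelow E A ≠ ⊥ := by
    intro hbot
    rw [hbot, Ideal.mem_bot] at hpP
    exact hp.ne_zero (by exact_mod_cast hpP)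
  have hq0 : (primeBelow E A).under ℤ ≠ ⊥ := fun hbot => hP0 (Ideal.eq_bot_of_comap_eq_bot hbot)
  have : ((primeBelow E A).under ℤ).IsPrime := Ideal.IsPrime.under ℤ (primeBelow E A)
  have := Ideal.finiteQuotientOfFreeOfNeBot _ hq0
  have hcard := Ideal.card_inertia_eq_ramificationIdxIn (G := E ≃ₐ[ℚ] E)
    ((primeBelow E A).under ℤ) (primeBelow E A)
  rw [hin, Subgroup.card_bot,
    Ideal.ramificationIdxIn_eq_ramificationIdx ((primeBelow E A).under ℤ) (primeBelow E A)
      (E ≃ₐ[ℚ] E)] at hcard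
  exact Ideal.ramificationIdx_eq_one_iff.mp hcard.symm


/-- **MINK**: an open normal subgroup of `Gal(Qb/ℚ)` containing, for every prime `ℓ`, the inertia
group of some valuation subring over `ℓ`, is everything. -/
theorem eq_top_of_inertia_le (K : Subgroup Γ) (hK : K.Normal) (hopen : IsOpen (K : Set Γ))
    (h : ∀ ℓ : ℕ, ℓ.Prime → ∃ A : ValuationSubring Qb, A.LiesOverPrime ℓ ∧
      A.inertiaSubgroupIn ℚ ≤ K) : K = ⊤ := by
  have hclosed : IsClosed (K : Set Γ) := K.isClosed_of_isOpen hopen
  let Kc : ClosedSubgroup Γ := ⟨K, hclosed⟩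
  let E : IntermediateField ℚ Qb := IntermediateField.fixedField K
  have hfix : E.fixingSubgroup = K := InfiniteGalois.fixingSubgroup_fixedField Kc
  have hfin : FiniteDimensional ℚ E := by
    rw [← InfiniteGalois.isOpen_iff_finite, hfix]
    exact hopen
  have hgal := (InfiniteGalois.normal_iff_isGalois E).mp (by rw [hfix]; exact hK)
  have hnormal : Normal ℚ E := by
    have h0 := hgal.to_normal
    convert h0
    exact Subsingleton.elim _ _
  have h1 : Module.finrank ℚ E = 1 := by
    apply finrank_eq_one_of_inertia E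
    intro ℓ hℓ
    obtain ⟨A, hA, hle⟩ := h ℓ hℓ
    refine ⟨A, hA, fun σ hσ x => ?_⟩
    have hx : (x : Qb) ∈ IntermediateField.fixedField K := x.2
    rw [IntermediateField.mem_fixedField_iff] at hx
    exact hx σ (hle hσ)
  rw [IntermediateField.finrank_eq_one_iff] at h1
  rw [← hfix, h1, IntermediateField.fixingSubgroup_bot]

end Fermat.Agent.S13.Mink
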